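/-
helper93 (P-MW / MW-A1-GAPS, row 711): the space of holomorphic differentials `G dy / y` has
dimension at most `g`.

`gapBound : AlgResidueStatement → GapBoundStatement`.

Proof.  Fix `v₀` in the support of `y`.  Put `a n = dim L(n v₀)` and `b n = dim L(W - n v₀)`.
If `L(n v₀) ≠ L((n+1) v₀)` there is `h` with poles only at `v₀`, of exact order `n + 1`; then no
`G ∈ L(W)` has order exactly `n + 1` at `v₀` (otherwise `h G dy / y` has a single simple pole,
contradicting the algebraic residue theorem), i.e. `L(W - n v₀) = L(W - (n+1) v₀)`.  Hence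
`a (n+1) + b n ≤ a n + b (n+1) + 1`, so `a n + b 0 ≤ n + 1 + b n`; for `n` large
`a n = n + 1 - g` and `b n = 0`.
-/
import Fermat.Agent.H84.MWDiv.Interfaces
import Fermat.Agent.H58.RR.Space

set_option autoImplicit false
set_option linter.style.haveILetI false

noncomputable section

open AlgebraicCurve
open Fermat.Agent.H27.ESD (RiemannPackage ramIdx)
open Fermat.Agent.H84.MWDiv (HasValueAt AlgResidueStatement GapBoundStatement)

namespace Fermat.Agent.H93.MWDiv

variable {K F : Type} [Field K] [Field F] [Algebra K F]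

/-- A nonconstant function has a zero or a pole. -/
theorem gb_exists_ord_ne_zero {g : ℕ} (pkg : RiemannPackage K F g) {y : F}
    (hy : Transcendental K y) : ∃ v : Place K F, v.ord y ≠ 0 := by
  by_contra hcon
  push Not at hcon
  haveI := pkg.principal
  haveI := pkg.infinite_places
  obtain ⟨v₀⟩ : Nonempty (Place K F) := inferInstance
  have hmem : y ∈ riemannRochSpace (0 : Divisor K F) := by
    rw [mem_riemannRochSpace_iff]
    intro v
    right
    rw [hcon v]
    simp
  obtain ⟨c, hc⟩ := (Fermat.Agent.H58.rr_mem_zero_iff pkg.deg_one v₀).mp hmem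
  exact hy (hc ▸ isAlgebraic_algebraMap c)

/-- **Gap step.**  If `h` has poles only at `v₀` (of exact order `A v₀ + 1`), then no element
of `L(W)` has the complementary order at `v₀`. -/
theorem gb_step (hART : AlgResidueStatement) [IsAlgClosed K] [CharZero K] {g : ℕ}
    (pkg : RiemannPackage K F g) {y : F} (hy : Transcendental K y)
    (hfin : FiniteDimensional (IntermediateField.adjoin K {y}) F)
    {W : Divisor K F} (hW1 : ∀ v : Place K F, v.ord y ≠ 0 → W v = -1)
    (hW2 : ∀ v : Place K F, v.ord y = 0 → W v = (ramIdx y v : ℤ) - 1)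
    {v₀ : Place K F} (hv₀ : v₀.ord y ≠ 0) (A B : Divisor K F)
    (hA : ∀ v : Place K F, v ≠ v₀ → A v = 0) (hB : ∀ v : Place K F, v ≠ v₀ → B v = W v)
    (hAB : A v₀ + B v₀ + 2 = 0)
    {h : F} (hh : h ∈ riemannRochSpace (A + Finsupp.single v₀ 1))
    (hh' : h ∉ riemannRochSpace A) :
    riemannRochSpace (B + Finsupp.single v₀ 1) ≤ riemannRochSpace B := by
  classical
  intro G hG
  by_contra hG'
  obtain ⟨hh0, hhord⟩ := Fermat.Agent.H58.rr_ord_eq_of_mem_of_notMem hh hh'
  obtain ⟨hG0, hGord⟩ := Fermat.Agent.H58.rr_ord_eq_of_mem_of_notMem hG hG'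
  have hhG0 : h * G ≠ 0 := mul_ne_zero hh0 hG0
  have hordv0 : v₀.ord (h * G) = 0 := by
    rw [v₀.ord_mul hh0 hG0, hhord, hGord]
    omega
  have hhv : ∀ v : Place K F, v ≠ v₀ → 0 ≤ v.ord h := by
    intro v hv
    have := ((mem_riemannRochSpace_iff.mp hh) v).resolve_left hh0
    rw [Fermat.Agent.H58.rr_add_single_apply_ne _ 1 hv, hA v hv] at this
    simpa using this
  have hGv : ∀ v : Place K F, v ≠ v₀ → -W v ≤ v.ord G := by
    intro v hv
    have := ((mem_riemannRochSpace_iff.mp hG) v).resolve_left hG0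
    rw [Fermat.Agent.H58.rr_add_single_apply_ne _ 1 hv, hB v hv] at this
    exact this
  obtain ⟨c₀, hc₀⟩ := Fermat.Agent.H23.exists_const_ord_sub_pos v₀ (pkg.deg_one v₀)
    (f := h * G) (Or.inr hordv0.ge)
  have hc₀ne : c₀ ≠ 0 := by
    rintro rfl
    rw [map_zero, sub_zero] at hc₀
    rcases hc₀ with h1 | h1
    · exact hhG0 h1
    · omega
  have key := hART K F g pkg y hy hfin (h * G) (fun v => if v = v₀ then c₀ else 0) ?_ ?_
  · rw [finsum_eq_single _ v₀ ?_] at key
    · rw [finsum_eq_if, if_pos (by exact hv₀), if_pos rfl] at key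
      rcases mul_eq_zero.mp key with h1 | h1
      · exact hv₀ (by exact_mod_cast h1)
      · exact hc₀ne h1
    · intro v hv
      rw [if_neg hv, mul_zero]
      exact finsum_zero
  · intro v hv
    by_cases hvv : v = v₀
    · subst hvv
      rw [if_pos rfl]
      exact ⟨hordv0.ge, hc₀⟩
    · rw [if_neg hvv]
      have h1 := hhv v hvv
      have h2 := hGv v hvv
      rw [hW1 v hv] at h2
      have h3 : 1 ≤ v.ord (h * G) := by
        rw [v.ord_mul hh0 hG0]
        omega
      refine ⟨by omega, Or.inr ?_⟩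
      rw [map_zero, sub_zero]
      omega
  · intro v hv
    have hvv : v ≠ v₀ := by
      rintro rfl
      exact hv₀ hv
    have h1 := hhv v hvv
    have h2 := hGv v hvv
    rw [hW2 v hv] at h2
    rw [v.ord_mul hh0 hG0]
    omega

/-- **MW-A1-GAPS.** The space of holomorphic differentials `G dy / y` has dimension at most
`g`. -/
theorem gapBound (hART : AlgResidueStatement) : GapBoundStatement := by
  classical
  intro K F _ _ _ _ _ g pkg y hy hfin W hW1 hW2
  haveI := pkg.principal
  obtain ⟨v₀, hv₀⟩ := gb_exists_ord_ne_zero pkg hy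
  have hfinD : ∀ D : Divisor K F, Module.Finite K (riemannRochSpace D) := pkg.finite
  have hstep : ∀ n : ℕ,
      Module.finrank K (riemannRochSpace (Finsupp.single v₀ ((n + 1 : ℕ) : ℤ))) +
        Module.finrank K (riemannRochSpace (W - Finsupp.single v₀ (n : ℤ))) ≤
      Module.finrank K (riemannRochSpace (Finsupp.single v₀ (n : ℤ))) +
        Module.finrank K (riemannRochSpace (W - Finsupp.single v₀ ((n + 1 : ℕ) : ℤ))) + 1 := by
    intro n
    have e1 : (Finsupp.single v₀ ((n + 1 : ℕ) : ℤ) : Divisor K F)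
        = Finsupp.single v₀ (n : ℤ) + Finsupp.single v₀ 1 := by
      rw [← Finsupp.single_add]
      push_cast
      rfl
    have e2 : W - Finsupp.single v₀ (n : ℤ)
        = (W - Finsupp.single v₀ ((n + 1 : ℕ) : ℤ)) + Finsupp.single v₀ 1 := by
      rw [e1]
      abel
    haveI := hfinD (Finsupp.single v₀ (n : ℤ))
    haveI := hfinD (W - Finsupp.single v₀ ((n + 1 : ℕ) : ℤ))
    obtain ⟨-, -, hA⟩ := Fermat.Agent.H58.rr_finrank_onestep (Finsupp.single v₀ (n : ℤ)) v₀
      (pkg.deg_one v₀)
    obtain ⟨-, -, hB⟩ := Fermat.Agent.H58.rr_finrank_onestep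
      (W - Finsupp.single v₀ ((n + 1 : ℕ) : ℤ)) v₀ (pkg.deg_one v₀)
    rw [← e1] at hA
    rw [← e2] at hB
    by_cases hle : riemannRochSpace (Finsupp.single v₀ (n : ℤ) + Finsupp.single v₀ 1)
        ≤ riemannRochSpace (Finsupp.single v₀ (n : ℤ))
    · have h1 := Submodule.finrank_mono hle
      rw [← e1] at h1
      omega
    · obtain ⟨h, hh, hh'⟩ := SetLike.not_le_iff_exists.mp hle
      have h1 := Submodule.finrank_mono
        (gb_step hART pkg hy hfin hW1 hW2 hv₀ (Finsupp.single v₀ (n : ℤ))
          (W - Finsupp.single v₀ ((n + 1 : ℕ) : ℤ))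
          (fun v hv => Finsupp.single_eq_of_ne hv)
          (fun v hv => by
            rw [Finsupp.sub_apply, Finsupp.single_eq_of_ne hv, sub_zero])
          (by
            rw [Finsupp.sub_apply, Finsupp.single_eq_same, Finsupp.single_eq_same, hW1 v₀ hv₀]
            push_cast
            ring)
          hh hh')
      rw [← e2] at h1
      omega
  have hind : ∀ n : ℕ,
      Module.finrank K (riemannRochSpace (Finsupp.single v₀ (n : ℤ))) +
        Module.finrank K (riemannRochSpace W) ≤
      n + 1 + Module.finrank K (riemannRochSpace (W - Finsupp.single v₀ (n : ℤ))) := by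
    intro n
    induction n with
    | zero =>
      have h1 : Module.finrank K (riemannRochSpace (Finsupp.single v₀ ((0 : ℕ) : ℤ))) = 1 := by
        rw [Nat.cast_zero, Finsupp.single_zero]
        exact pkg.finrank_zero
      have h2 : W - Finsupp.single v₀ ((0 : ℕ) : ℤ) = W := by
        rw [Nat.cast_zero, Finsupp.single_zero, sub_zero]
      rw [h1, h2]
    | succ n ih =>
      have := hstep n
      omega
  obtain ⟨c, hc⟩ := pkg.eq_of_large
  set n : ℕ := max c.toNat (Divisor.degree W + 1).toNat with hn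
  have hn1 : c ≤ (n : ℤ) := by
    have h1 := Int.self_le_toNat c
    have h2 := le_max_left c.toNat (Divisor.degree W + 1).toNat
    omega
  have hn2 : Divisor.degree W + 1 ≤ (n : ℤ) := by
    have h1 := Int.self_le_toNat (Divisor.degree W + 1)
    have h2 := le_max_right c.toNat (Divisor.degree W + 1).toNat
    omega
  have hdegA : Divisor.degree (Finsupp.single v₀ (n : ℤ)) = (n : ℤ) := by
    rw [Divisor.degree_single, pkg.deg_one]
    simp
  have hdegB : Divisor.degree (W - Finsupp.single v₀ (n : ℤ)) = Divisor.degree W - (n : ℤ) := by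
    rw [map_sub, hdegA]
  have han : (Module.finrank K (riemannRochSpace (Finsupp.single v₀ (n : ℤ))) : ℤ)
      = (n : ℤ) + 1 - (g : ℤ) := by
    rw [hc _ (by rw [hdegA]; exact hn1), hdegA]
  have hbn : Module.finrank K (riemannRochSpace (W - Finsupp.single v₀ (n : ℤ))) = 0 := by
    rw [Fermat.Agent.H58.rr_space_eq_bot_of_degree_neg (by rw [hdegB]; omega)]
    exact finrank_bot K F
  have h3 := hind n
  rw [hbn] at h3
  omega

end Fermat.Agent.H93.MWDiv
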