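/-
helper93 (P-MW / MW-A1-ART, row 709, part ART-i): integrality of the trace of an element of the
inverse different (Mathlib only).

`art_trace_mem_range`: `B / A` a finite separable extension of Dedekind domains (`B` the integral
closure of `A` in `L`), `G ∈ L` such that at every height one prime `P` of `B` there are a
maximal ideal `p ≠ ⊥` of `A` and `e` with `P ^ e ∣ p B` and `v_P(G) ≤ exp (e - 1)`
(i.e. `ord_P G ≥ -(e - 1)`).  Then `Tr_{L/K} G ∈ A`.
(`P ^ (e - 1)` divides the different by Mathlib's `pow_sub_one_dvd_differentIdeal`, so `G d` is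
integral for every `d` in the different, i.e. `G` lies in the dual of `B` for the trace form.)
-/
import Mathlib

set_option autoImplicit false
set_option linter.overlappingInstances false

open IsDedekindDomain WithZero

namespace Fermat.Agent.H93.MWDiv

/-- An element of `L` with `v_P(G) ≤ exp (e_P - 1)` at all primes lies in the inverse
different. -/
theorem art_mul_mem_range (A K : Type*) {L B : Type*} [CommRing A] [Field K] [CommRing B]
    [Field L] [Algebra A K] [Algebra B L] [Algebra A B] [Algebra K L] [Algebra A L]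
    [IsScalarTower A K L] [IsScalarTower A B L]
    [IsDomain A] [IsFractionRing A K] [FiniteDimensional K L] [Algebra.IsSeparable K L]
    [IsIntegralClosure B A L] [IsFractionRing B L] [IsDedekindDomain A] [IsDedekindDomain B]
    [Module.IsTorsionFree A B] [Module.Finite A B] (G : L)
    (hG : ∀ P : HeightOneSpectrum B, ∃ (p : Ideal A) (e : ℕ), p.IsMaximal ∧ p ≠ ⊥ ∧
      P.asIdeal ^ e ∣ p.map (algebraMap A B) ∧ P.valuation L G ≤ exp ((e : ℤ) - 1))
    (d : B) (hd : d ∈ differentIdeal A B) :
    G * algebraMap B L d ∈ (algebraMap B L).range := by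
  apply HeightOneSpectrum.mem_integers_of_valuation_le_one L
  intro P
  obtain ⟨p, e, hpmax, hp, hP, hv⟩ := hG P
  have hdvd : P.asIdeal ^ (e - 1) ∣ differentIdeal A B := by
    by_cases he : e = 0
    · rw [he, Nat.zero_sub, pow_zero]
      exact one_dvd _
    · exact pow_sub_one_dvd_differentIdeal_aux A K L P.asIdeal he hp hP
  have hdmem : d ∈ P.asIdeal ^ (e - 1) := Ideal.le_of_dvd hdvd hd
  have hdv : P.intValuation d ≤ exp (-((e - 1 : ℕ) : ℤ)) :=
    (P.intValuation_le_pow_iff_mem d (e - 1)).mpr hdmem
  rw [map_mul, P.valuation_of_algebraMap]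
  calc P.valuation L G * P.intValuation d
      ≤ exp ((e : ℤ) - 1) * exp (-((e - 1 : ℕ) : ℤ)) := mul_le_mul' hv hdv
    _ = exp ((e : ℤ) - 1 + -((e - 1 : ℕ) : ℤ)) := (exp_add _ _).symm
    _ ≤ exp (0 : ℤ) := by
        rw [exp_le_exp]
        omega
    _ = 1 := exp_zero

/-- **ART-i (abstract form).**  The trace of an element of the inverse different is integral. -/
theorem art_trace_mem_range (A K : Type*) {L B : Type*} [CommRing A] [Field K] [CommRing B]
    [Field L] [Algebra A K] [Algebra B L] [Algebra A B] [Algebra K L] [Algebra A L]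
    [IsScalarTower A K L] [IsScalarTower A B L]
    [IsDomain A] [IsFractionRing A K] [FiniteDimensional K L] [Algebra.IsSeparable K L]
    [IsIntegralClosure B A L] [IsFractionRing B L] [IsDedekindDomain A] [IsDedekindDomain B]
    [Module.IsTorsionFree A B] [Module.Finite A B] (G : L)
    (hG : ∀ P : HeightOneSpectrum B, ∃ (p : Ideal A) (e : ℕ), p.IsMaximal ∧ p ≠ ⊥ ∧
      P.asIdeal ^ e ∣ p.map (algebraMap A B) ∧ P.valuation L G ≤ exp ((e : ℤ) - 1)) :
    Algebra.trace K L G ∈ (algebraMap A K).range := by
  have hdual0 : FractionalIdeal.dual A K (1 : FractionalIdeal (nonZeroDivisors B) L) ≠ 0 :=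
    FractionalIdeal.dual_ne_zero A K one_ne_zero
  have hD : ((differentIdeal A B : Ideal B) : FractionalIdeal (nonZeroDivisors B) L) =
      (FractionalIdeal.dual A K (1 : FractionalIdeal (nonZeroDivisors B) L))⁻¹ :=
    coeIdeal_differentIdeal A K L B
  have hmem : G ∈ (FractionalIdeal.dual A K (1 : FractionalIdeal (nonZeroDivisors B) L)) := by
    have h1 : (FractionalIdeal.dual A K (1 : FractionalIdeal (nonZeroDivisors B) L)) =
        ((differentIdeal A B : Ideal B) : FractionalIdeal (nonZeroDivisors B) L)⁻¹ := by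
      rw [hD, inv_inv]
    rw [h1, FractionalIdeal.mem_inv_iff]
    · intro x hx
      rw [FractionalIdeal.mem_coeIdeal] at hx
      obtain ⟨d, hd, rfl⟩ := hx
      rw [FractionalIdeal.mem_one_iff]
      obtain ⟨b, hb⟩ := art_mul_mem_range A K G hG d hd
      exact ⟨b, hb⟩
    · rw [hD]
      exact inv_ne_zero hdual0
  have h2 := (FractionalIdeal.mem_dual (A := A) (K := K)
    (one_ne_zero : (1 : FractionalIdeal (nonZeroDivisors B) L) ≠ 0)).mp hmem 1
    (FractionalIdeal.one_mem_one _)
  rw [Algebra.traceForm_apply, mul_one] at h2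
  exact h2

end Fermat.Agent.H93.MWDiv
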