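/-
helper93 (P-MW / MW-A1-ART, row 709, part ART-i): place form.

`art_trace_mem_adjoin`: `K` algebraically closed of characteristic zero, `y ∈ F` transcendental
with `F / K(y)` finite, `G ∈ F` with `ord_v G ≥ -(e_v - 1)` at every place `v` with
`0 ≤ ord_v y` (`e_v = ramIdx y v`).  Then `Tr_{F/K(y)} G ∈ K[y]`.
-/
import Fermat.Agent.H84.FundIdentity
import Fermat.Agent.H19.RH.RamIdx
import Fermat.Agent.H93.MWDiv.TraceIntegral

set_option autoImplicit false
set_option linter.deprecated false
set_option linter.style.haveILetI false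

noncomputable section

open AlgebraicCurve IntermediateField Polynomial IsDedekindDomain WithZero
open scoped IntermediateField.algebraAdjoinAdjoin
open Fermat.Agent.H27.ESD (ramIdx)
open Fermat.Agent.H84

namespace Fermat.Agent.H93.MWDiv

variable {K F : Type} [Field K] [Field F] [Algebra K F]

/-- the element `y - c` of `K[y]` -/
def artGen (y : F) (c : K) : Algebra.adjoin K ({y} : Set F) :=
  genA (K := K) y - algebraMap K _ c

theorem coe_artGen (y : F) (c : K) :
    ((artGen y c : Algebra.adjoin K ({y} : Set F)) : F) = y - algebraMap K F c := rfl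

theorem artGen_irreducible (y : F) (hy : Transcendental K y) (c : K) :
    Irreducible (artGen y c) := by
  let e : Polynomial K ≃+* Algebra.adjoin K ({y} : Set F) :=
    RingEquiv.ofBijective (polyToA (K := K) y) ⟨polyToA_injective y hy, polyToA_surjective y⟩
  have h : artGen y c = e (Polynomial.X - Polynomial.C c) := by
    apply Subtype.ext
    show y - algebraMap K F c = ((polyToA (K := K) y (Polynomial.X - Polynomial.C c) :
      Algebra.adjoin K ({y} : Set F)) : F)
    rw [coe_polyToA]
    simp
  rw [h]
  exact (MulEquiv.irreducible_iff e).mpr (Polynomial.irreducible_X_sub_C c)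

theorem artIdeal_isMaximal (y : F) (hy : Transcendental K y) (c : K) :
    (Ideal.span {artGen y c}).IsMaximal := by
  haveI := isPrincipalIdealRing_adjoin (K := K) y
  exact PrincipalIdealRing.isMaximal_of_irreducible (artGen_irreducible y hy c)

theorem artIdeal_ne_bot (y : F) (hy : Transcendental K y) (c : K) :
    Ideal.span {artGen y c} ≠ ⊥ := by
  rw [Ne, Ideal.span_singleton_eq_bot]
  exact (artGen_irreducible y hy c).ne_zero

section Dict

variable {R : Type} [CommRing R] [IsDedekindDomain R] [Algebra R F] [IsFractionRing R F]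
  [Algebra K R] [IsScalarTower K R F]

/-- valuation bounds in terms of the order at the place of a height one prime -/
theorem art_valuation_le_exp (w : HeightOneSpectrum R) (f : F) (n : ℤ)
    (h : -n ≤ (Place.ofHeightOneSpectrum (K := K) (F := F) w).ord f) :
    f = 0 ∨ w.valuation F f ≤ exp n := by
  by_cases hf : f = 0
  · exact Or.inl hf
  · right
    have h1 := ord_ofHeightOneSpectrum (K := K) w f hf
    have hne : w.valuation F f ≠ 0 := (Valuation.ne_zero_iff _).mpr hf
    rw [← exp_log hne, exp_le_exp]
    omega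

theorem art_ord_nonneg_of_algebraMap (w : HeightOneSpectrum R) (r : R) :
    0 ≤ (Place.ofHeightOneSpectrum (K := K) (F := F) w).ord (algebraMap R F r) := by
  apply Fermat.Agent.H29.place_ord_nonneg_of_mem
  rw [Place.ofHeightOneSpectrum_toValuationSubring, Valuation.mem_valuationSubring_iff]
  exact w.valuation_le_one _

theorem art_intValuation_le_exp (w : HeightOneSpectrum R) (r : R) (n : ℕ)
    (h : (n : ℤ) ≤ (Place.ofHeightOneSpectrum (K := K) (F := F) w).ord (algebraMap R F r)) :
    w.intValuation r ≤ exp (-(n : ℤ)) := by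
  have key : w.valuation F (algebraMap R F r) ≤ exp (-(n : ℤ)) := by
    rcases art_valuation_le_exp (K := K) w (algebraMap R F r) (-(n : ℤ)) (by omega) with h0 | h0
    · rw [h0, map_zero]
      exact zero_le'
    · exact h0
  rwa [w.valuation_of_algebraMap] at key

end Dict

set_option synthInstance.maxHeartbeats 400000 in
/-- **ART-i (place form), local hypothesis.** -/
theorem art_local_hyp [IsAlgClosed K] [CharZero K] (y : F) (hy : Transcendental K y)
    (hfin : FiniteDimensional K⟮y⟯ F) (G : F)
    (hG : ∀ v : Place K F, 0 ≤ v.ord y → -((ramIdx y v : ℤ) - 1) ≤ v.ord G)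
    [IsDedekindDomain (integralClosure (Algebra.adjoin K ({y} : Set F)) F)]
    [IsFractionRing (integralClosure (Algebra.adjoin K ({y} : Set F)) F) F]
    (P : HeightOneSpectrum (integralClosure (Algebra.adjoin K ({y} : Set F)) F)) :
    ∃ (p : Ideal (Algebra.adjoin K ({y} : Set F))) (e : ℕ), p.IsMaximal ∧ p ≠ ⊥ ∧
      P.asIdeal ^ e ∣ p.map (algebraMap (Algebra.adjoin K ({y} : Set F))
        (integralClosure (Algebra.adjoin K ({y} : Set F)) F)) ∧
      P.valuation F G ≤ exp ((e : ℤ) - 1) := by
  obtain ⟨v, hv⟩ : ∃ v : Place K F, v = Place.ofHeightOneSpectrum (K := K) (F := F) P :=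
    ⟨_, rfl⟩
  have hvy : 0 ≤ v.ord y := by
    rw [hv]
    exact art_ord_nonneg_of_algebraMap (K := K) P (genB (K := K) y)
  obtain ⟨c, hc⟩ : ∃ c : K, 0 < v.ord (y - algebraMap K F c) := by
    rcases Fermat.Agent.H19.rh_place_cases v (place_deg_eq_one y hfin v) hy with h | h
    · omega
    · exact h
  have hram : (ramIdx y v : ℤ) = v.ord (y - algebraMap K F c) :=
    Fermat.Agent.H19.rh_ramIdx_of_ord_sub_pos' v hc
  have hecast : (((v.ord (y - algebraMap K F c)).toNat : ℕ) : ℤ)
      = v.ord (y - algebraMap K F c) := Int.toNat_of_nonneg hc.le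
  refine ⟨Ideal.span {artGen y c}, (v.ord (y - algebraMap K F c)).toNat,
    artIdeal_isMaximal y hy c, artIdeal_ne_bot y hy c, ?_, ?_⟩
  · rw [Ideal.map_span, Set.image_singleton, Ideal.dvd_span_singleton,
      ← P.intValuation_le_pow_iff_mem]
    apply art_intValuation_le_exp (K := K) (F := F)
    rw [← hv, hecast]
    exact le_of_eq rfl
  · have h2 := hG v hvy
    rcases art_valuation_le_exp (K := K) P G
      ((((v.ord (y - algebraMap K F c)).toNat : ℕ) : ℤ) - 1)
      (by rw [← hv, hecast]; omega) with h0 | h0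
    · rw [h0, map_zero]
      exact zero_le'
    · exact h0

set_option synthInstance.maxHeartbeats 400000 in
/-- **ART-i (place form).**  If `ord_v G ≥ -(e_v - 1)` at every place `v` with `0 ≤ ord_v y`,
then `Tr_{F/K(y)} G ∈ K[y]`. -/
theorem art_trace_mem_adjoin [IsAlgClosed K] [CharZero K] (y : F) (hy : Transcendental K y)
    (hfin : FiniteDimensional K⟮y⟯ F) (G : F)
    (hG : ∀ v : Place K F, 0 ≤ v.ord y → -((ramIdx y v : ℤ) - 1) ≤ v.ord G) :
    ∃ p : K[X], ((Algebra.trace K⟮y⟯ F G : K⟮y⟯) : F) = aeval y p := by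
  haveI := isDedekindDomain_adjoin (K := K) y
  haveI := isDedekindDomain_closure (K := K) y hfin
  haveI := isFractionRing_closure (K := K) y hfin
  haveI := finite_closure (K := K) y hfin
  haveI := isSeparable_of_charZero y hfin
  obtain ⟨a, ha⟩ := art_trace_mem_range (Algebra.adjoin K ({y} : Set F)) K⟮y⟯ (L := F)
    (B := integralClosure (Algebra.adjoin K ({y} : Set F)) F) G
    (fun P => art_local_hyp y hy hfin G hG P)
  obtain ⟨p, hp⟩ : ∃ p : K[X], aeval y p = (a : F) :=
    (SetLike.ext_iff.mp (Algebra.adjoin_singleton_eq_range_aeval K y) (a : F)).mp a.2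
  refine ⟨p, ?_⟩
  rw [hp, ← ha]
  rfl

end Fermat.Agent.H93.MWDiv
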